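import Fermat.Agent.S53.PR.TestAlg

set_option autoImplicit false

/-!
# Abstract deformation functors on Artinian test algebras and pro-representability data

Interface file for S53, part (D).

* `DefFunctor 𝒪` : a set-valued functor on `TestAlg 𝒪` with `F(k)` a singleton, which turns
  fibre squares with one surjective leg into fibre squares of sets, and with `F(k[ε])` finite.
* `ProRep D` : the output of pro-representability: a complete Noetherian local `𝒪`-algebra `R`
  with `R/𝔪^(n+1) = Rn n`, a compatible family `ξ n ∈ F (Rn n)`, and the universal property on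
  test algebras.
-/

namespace Fermat.Agent.S53.PR

open IsLocalRing

universe v

/-- A deformation functor on Artinian test algebras (Schlessinger H1–H4 packaged as
"fibre squares with a surjective leg go to fibre squares"). -/
structure DefFunctor (𝒪 : Type) [CommRing 𝒪] [IsLocalRing 𝒪] [Finite (ResidueField 𝒪)] where
  /-- The functor on objects. -/
  F : TestAlg 𝒪 → Type v
  /-- The functor on morphisms. -/
  map : ∀ {A B : TestAlg 𝒪}, (A →ₐ[𝒪] B) → F A → F B
  map_id : ∀ (A : TestAlg 𝒪) (x : F A), map (AlgHom.id 𝒪 A) x = x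
  map_comp : ∀ {A B C : TestAlg 𝒪} (f : A →ₐ[𝒪] B) (g : B →ₐ[𝒪] C) (x : F A),
    map (g.comp f) x = map g (map f x)
  /-- `F(k)` is a singleton. -/
  nonempty_resField : Nonempty (F (TestAlg.resField 𝒪))
  subsingleton_resField : Subsingleton (F (TestAlg.resField 𝒪))
  /-- Injectivity of `F(P) → F(A') ×_{F(A)} F(A'')` for a fibre square with `g` surjective. -/
  glue_inj : ∀ {A' A'' A P : TestAlg 𝒪} (f : A' →ₐ[𝒪] A) (g : A'' →ₐ[𝒪] A)
    (pA : P →ₐ[𝒪] A') (pB : P →ₐ[𝒪] A''), f.comp pA = g.comp pB →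
    Function.Injective (fun x => (pA x, pB x)) →
    (∀ a b, f a = g b → ∃ x, pA x = a ∧ pB x = b) → Function.Surjective g →
    ∀ x y : F P, map pA x = map pA y → map pB x = map pB y → x = y
  /-- Surjectivity of `F(P) → F(A') ×_{F(A)} F(A'')` for a fibre square with `g` surjective. -/
  glue_surj : ∀ {A' A'' A P : TestAlg 𝒪} (f : A' →ₐ[𝒪] A) (g : A'' →ₐ[𝒪] A)
    (pA : P →ₐ[𝒪] A') (pB : P →ₐ[𝒪] A''), f.comp pA = g.comp pB →
    Function.Injective (fun x => (pA x, pB x)) →
    (∀ a b, f a = g b → ∃ x, pA x = a ∧ pB x = b) → Function.Surjective g →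
    ∀ (a : F A') (b : F A''), map f a = map g b → ∃ x : F P, map pA x = a ∧ map pB x = b
  /-- The tangent space `F(k[ε])` is finite. -/
  tangent_finite : Finite (F (TestAlg.dualNumber 𝒪))

/-- Pro-representability data for a deformation functor. -/
structure ProRep {𝒪 : Type} [CommRing 𝒪] [IsLocalRing 𝒪] [Finite (ResidueField 𝒪)]
    (D : DefFunctor.{v} 𝒪) where
  /-- The pro-representing ring. -/
  R : Type
  [commRing : CommRing R]
  [isLocalRing : IsLocalRing R]
  [isNoetherianRing : IsNoetherianRing R]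
  [isAdicComplete : IsAdicComplete (maximalIdeal R) R]
  [algebra : Algebra 𝒪 R]
  [isLocalHom : IsLocalHom (algebraMap 𝒪 R)]
  residue_surjective : Function.Surjective (IsLocalRing.residue R ∘ algebraMap 𝒪 R)
  /-- The Artinian quotients `R/𝔪^(n+1)`. -/
  Rn : ℕ → TestAlg 𝒪
  /-- The quotient maps. -/
  q : ∀ n, R →ₐ[𝒪] Rn n
  q_surjective : ∀ n, Function.Surjective (q n)
  ker_q : ∀ n, RingHom.ker (q n : R →+* Rn n) = maximalIdeal R ^ (n + 1)
  /-- Transition maps. -/
  τ : ∀ n, Rn (n + 1) →ₐ[𝒪] Rn n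
  τ_comp_q : ∀ n, (τ n).comp (q (n + 1)) = q n
  /-- The compatible family of universal objects. -/
  ξ : ∀ n, D.F (Rn n)
  map_τ_ξ : ∀ n, D.map (τ n) (ξ (n + 1)) = ξ n
  /-- Every object over a test algebra is induced from some `ξ n`. -/
  exists_hom : ∀ (A : TestAlg 𝒪) (η : D.F A), ∃ n, ∃ v : Rn n →ₐ[𝒪] A, D.map v (ξ n) = η
  /-- ... by a unique homomorphism. -/
  hom_unique : ∀ (A : TestAlg 𝒪) (n : ℕ) (v w : Rn n →ₐ[𝒪] A),
    D.map v (ξ n) = D.map w (ξ n) → v = w

attribute [instance] ProRep.commRing ProRep.isLocalRing ProRep.isNoetherianRing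
  ProRep.isAdicComplete ProRep.algebra ProRep.isLocalHom

end Fermat.Agent.S53.PR
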