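import Mathlib
import Fermat.Prelude.Def_GaloisRep_DeformationCondition

set_option autoImplicit false

/-!
# Bundled Artinian test algebras over a local ring `𝒪`

Part (D) of S53: abstract pro-representability.  This file sets up the bundled
category-like structure `TestAlg 𝒪` of Artinian local `𝒪`-algebras with residue field
that of `𝒪` (the Prelude predicate `GaloisRep.IsArtinianTestAlgebra`), and basic facts.
-/

namespace Fermat.Agent.S53.PR

open IsLocalRing GaloisRep

noncomputable section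

/-- Bundled Artinian test algebra. -/
structure TestAlg (𝒪 : Type) [CommRing 𝒪] [IsLocalRing 𝒪] where
  carrier : Type
  [commRing : CommRing carrier]
  [isLocalRing : IsLocalRing carrier]
  [algebra : Algebra 𝒪 carrier]
  isTest : IsArtinianTestAlgebra 𝒪 carrier

attribute [instance] TestAlg.commRing TestAlg.isLocalRing TestAlg.algebra

namespace TestAlg

variable {𝒪 : Type} [CommRing 𝒪] [IsLocalRing 𝒪]

instance : CoeSort (TestAlg 𝒪) Type := ⟨TestAlg.carrier⟩

/-- Constructor from unbundled data. -/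
abbrev of (A : Type) [CommRing A] [IsLocalRing A] [Algebra 𝒪 A]
    (h : IsArtinianTestAlgebra 𝒪 A) : TestAlg 𝒪 := ⟨A, h⟩

variable (A B : TestAlg 𝒪)

instance : IsLocalHom (algebraMap 𝒪 A) := A.isTest.isLocalHom

instance : IsArtinianRing A := A.isTest.isArtinian

theorem residue_surjective :
    Function.Surjective (IsLocalRing.residue A ∘ algebraMap 𝒪 A) :=
  A.isTest.residue_surjective

theorem exists_sub_mem (a : A) : ∃ c : 𝒪, a - algebraMap 𝒪 A c ∈ maximalIdeal A := by
  obtain ⟨c, hc⟩ := A.residue_surjective (IsLocalRing.residue A a)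
  refine ⟨c, ?_⟩
  rw [← Ideal.Quotient.eq_zero_iff_mem, map_sub]
  change IsLocalRing.residue A a - IsLocalRing.residue A (algebraMap 𝒪 A c) = 0
  rw [sub_eq_zero]
  exact hc.symm

theorem isNilpotent_maximalIdeal : IsNilpotent (maximalIdeal A) := by
  have h := IsArtinianRing.isNilpotent_jacobson_bot (R := A)
  rwa [IsLocalRing.jacobson_eq_maximalIdeal _ bot_ne_top] at h

theorem exists_pow_maximalIdeal_eq_bot : ∃ n : ℕ, maximalIdeal A ^ n = ⊥ := by
  obtain ⟨n, hn⟩ := A.isNilpotent_maximalIdeal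
  exact ⟨n, hn⟩

theorem isNilpotent_of_mem_maximalIdeal {a : A} (ha : a ∈ maximalIdeal A) : IsNilpotent a := by
  obtain ⟨n, hn⟩ := A.exists_pow_maximalIdeal_eq_bot
  refine ⟨n, ?_⟩
  have : a ^ n ∈ maximalIdeal A ^ n := Ideal.pow_mem_pow ha n
  rw [hn] at this
  simpa using this

variable {A B}

/-- Any `𝒪`-algebra hom between test algebras reflects and preserves the maximal ideal. -/
theorem map_mem_maximalIdeal_iff (f : A →ₐ[𝒪] B) (a : A) :
    f a ∈ maximalIdeal B ↔ a ∈ maximalIdeal A := by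
  constructor
  · intro h
    by_contra ha
    have hu : IsUnit a := by
      by_contra hu
      exact ha ((mem_maximalIdeal a).mpr hu)
    exact (mem_maximalIdeal _).mp h (hu.map f)
  · intro ha
    have hn : IsNilpotent (f a) := (A.isNilpotent_of_mem_maximalIdeal ha).map f
    rw [mem_maximalIdeal]
    intro hu
    exact hn.not_isUnit hu

theorem isLocalHom_algHom (f : A →ₐ[𝒪] B) : IsLocalHom (f : A →+* B) := by
  constructor
  intro a ha
  by_contra hu
  have : a ∈ maximalIdeal A := (mem_maximalIdeal a).mpr hu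
  have := (map_mem_maximalIdeal_iff f a).mpr this
  exact (mem_maximalIdeal _).mp this ha

theorem map_maximalIdeal_le (f : A →ₐ[𝒪] B) :
    (maximalIdeal A).map (f : A →+* B) ≤ maximalIdeal B := by
  rw [Ideal.map_le_iff_le_comap]
  intro a ha
  exact (map_mem_maximalIdeal_iff f a).mpr ha

theorem map_pow_maximalIdeal_le (f : A →ₐ[𝒪] B) (n : ℕ) :
    (maximalIdeal A ^ n).map (f : A →+* B) ≤ maximalIdeal B ^ n := by
  rw [Ideal.map_pow]
  exact Ideal.pow_right_mono (map_maximalIdeal_le f) n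

/-- Two algebra homs into a test algebra that is a field agree. -/
theorem algHom_ext_of_isField (hB : maximalIdeal B = ⊥) (f g : A →ₐ[𝒪] B) : f = g := by
  ext a
  obtain ⟨c, hc⟩ := A.exists_sub_mem a
  have hf := (map_mem_maximalIdeal_iff f _).mpr hc
  have hg := (map_mem_maximalIdeal_iff g _).mpr hc
  rw [hB, Ideal.mem_bot, map_sub, AlgHom.commutes, sub_eq_zero] at hf hg
  rw [hf, hg]

variable (A)

section Finite

variable [Finite (ResidueField 𝒪)]

instance finite_residueField : Finite (ResidueField A) := by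
  have h : Function.Surjective (ResidueField.map (algebraMap 𝒪 A)) := by
    intro x
    obtain ⟨a, rfl⟩ := IsLocalRing.residue_surjective x
    obtain ⟨c, hc⟩ := A.residue_surjective (IsLocalRing.residue A a)
    exact ⟨IsLocalRing.residue 𝒪 c, by rw [ResidueField.map_residue]; exact hc⟩
  exact Finite.of_surjective _ h

instance finite : Finite A := by
  obtain ⟨n, hn⟩ := A.exists_pow_maximalIdeal_eq_bot
  have : Finite (A ⧸ (⊥ : Ideal A)) :=
    IsLocalRing.finite_quotient_iff.mpr ⟨n, hn.le⟩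
  exact Finite.of_equiv _ (RingEquiv.quotientBot A).toEquiv

end Finite

/-! ### The residue field as a test algebra, and the residue map -/

variable (𝒪) in
/-- The residue field of `𝒪` as a test algebra. -/
abbrev resField : TestAlg 𝒪 :=
  of (ResidueField 𝒪)
    { isLocalHom := by
        constructor
        intro c hc
        by_contra hu
        have : c ∈ maximalIdeal 𝒪 := (mem_maximalIdeal c).mpr hu
        have h0 : algebraMap 𝒪 (ResidueField 𝒪) c = 0 :=
          (IsLocalRing.residue_eq_zero_iff c).mpr this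
        rw [h0] at hc
        exact not_isUnit_zero hc
      residue_surjective := by
        intro x
        obtain ⟨y, rfl⟩ := IsLocalRing.residue_surjective x
        obtain ⟨c, rfl⟩ := IsLocalRing.residue_surjective y
        exact ⟨c, rfl⟩
      isArtinian := inferInstance }

theorem maximalIdeal_resField : maximalIdeal (resField 𝒪) = ⊥ :=
  IsLocalRing.isField_iff_maximalIdeal_eq.mp (Field.toIsField (ResidueField 𝒪))

theorem residueFieldMap_bijective :
    Function.Bijective (ResidueField.map (algebraMap 𝒪 A)) := by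
  refine ⟨(ResidueField.map (algebraMap 𝒪 A)).injective, ?_⟩
  intro x
  obtain ⟨a, rfl⟩ := IsLocalRing.residue_surjective x
  obtain ⟨c, hc⟩ := A.residue_surjective (IsLocalRing.residue A a)
  exact ⟨IsLocalRing.residue 𝒪 c, by rw [ResidueField.map_residue]; exact hc⟩

/-- The identification of residue fields `k_𝒪 ≃ k_A`. -/
def resEquiv : ResidueField 𝒪 ≃+* ResidueField A :=
  RingEquiv.ofBijective _ A.residueFieldMap_bijective

/-- The residue map `A → k_𝒪` as an `𝒪`-algebra hom. -/
def toRes : A →ₐ[𝒪] resField 𝒪 :=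
  { (A.resEquiv.symm : ResidueField A →+* ResidueField 𝒪).comp (IsLocalRing.residue A) with
    commutes' := by
      intro c
      change A.resEquiv.symm (IsLocalRing.residue A (algebraMap 𝒪 A c)) = _
      rw [RingEquiv.symm_apply_eq]
      change _ = ResidueField.map (algebraMap 𝒪 A) (IsLocalRing.residue 𝒪 c)
      rw [ResidueField.map_residue] }

theorem toRes_apply (a : A) : A.toRes a = A.resEquiv.symm (IsLocalRing.residue A a) := rfl

theorem toRes_eq_zero_iff (a : A) : A.toRes a = 0 ↔ a ∈ maximalIdeal A := by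
  rw [toRes_apply, map_eq_zero_iff _ A.resEquiv.symm.injective, IsLocalRing.residue_eq_zero_iff]

theorem toRes_surjective : Function.Surjective A.toRes := by
  intro x
  obtain ⟨c, rfl⟩ := IsLocalRing.residue_surjective x
  exact ⟨algebraMap 𝒪 A c, A.toRes.commutes c⟩

theorem toRes_algebraMap (c : 𝒪) : A.toRes (algebraMap 𝒪 A c) = IsLocalRing.residue 𝒪 c :=
  A.toRes.commutes c

variable {A} in
theorem toRes_comp (f : A →ₐ[𝒪] B) : B.toRes.comp f = A.toRes :=
  algHom_ext_of_isField maximalIdeal_resField _ _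

variable {A} in
theorem toRes_map (f : A →ₐ[𝒪] B) (a : A) : B.toRes (f a) = A.toRes a :=
  congrArg (fun g : A →ₐ[𝒪] resField 𝒪 => g a) (toRes_comp f)

/-! ### A generic constructor: finite algebras with a unit-reflecting hom to a test algebra -/

section OfHom

variable {X : Type} [CommRing X] [Algebra 𝒪 X]

theorem isLocalRing_of_hom (ρ : X →ₐ[𝒪] B) (hρ : ∀ x, IsUnit (ρ x) → IsUnit x) :
    IsLocalRing X := by
  have : Nontrivial X := by
    refine ⟨⟨0, 1, fun h => ?_⟩⟩
    have := congrArg ρ h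
    rw [map_zero, map_one] at this
    exact zero_ne_one this
  refine IsLocalRing.of_nonunits_add ?_
  intro a b ha hb
  have ha' : ρ a ∈ maximalIdeal B := (mem_maximalIdeal _).mpr fun h => ha (hρ a h)
  have hb' : ρ b ∈ maximalIdeal B := (mem_maximalIdeal _).mpr fun h => hb (hρ b h)
  have hab : ρ (a + b) ∈ maximalIdeal B := by
    rw [map_add]; exact Ideal.add_mem _ ha' hb'
  intro hu
  exact (mem_maximalIdeal _).mp hab (hu.map ρ)

theorem isTest_of_hom [IsLocalRing X] [Finite X] (ρ : X →ₐ[𝒪] B) :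
    IsArtinianTestAlgebra 𝒪 X where
  isLocalHom := by
    constructor
    intro c hc
    have h1 : IsUnit (ρ (algebraMap 𝒪 X c)) := hc.map ρ
    rw [AlgHom.commutes] at h1
    exact isUnit_of_map_unit (algebraMap 𝒪 B) c h1
  residue_surjective := by
    intro x
    obtain ⟨x, rfl⟩ := IsLocalRing.residue_surjective x
    obtain ⟨c, hc⟩ := B.exists_sub_mem (ρ x)
    refine ⟨c, ?_⟩
    change IsLocalRing.residue X (algebraMap 𝒪 X c) = IsLocalRing.residue X x
    rw [← sub_eq_zero, ← map_sub, IsLocalRing.residue_eq_zero_iff, mem_maximalIdeal]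
    intro hu
    have h1 : IsUnit (ρ (algebraMap 𝒪 X c - x)) := hu.map ρ
    rw [map_sub, AlgHom.commutes] at h1
    have h2 : algebraMap 𝒪 B c - ρ x ∈ maximalIdeal B := by
      rw [← neg_sub]; exact neg_mem hc
    exact (mem_maximalIdeal _).mp h2 h1
  isArtinian := inferInstance

/-- Bundled version. -/
abbrev ofHom (X : Type) [CommRing X] [Algebra 𝒪 X] [Finite X] (ρ : X →ₐ[𝒪] B)
    (hρ : ∀ x, IsUnit (ρ x) → IsUnit x) : TestAlg 𝒪 :=
  letI := isLocalRing_of_hom ρ hρ
  of X (isTest_of_hom ρ)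

end OfHom

/-! ### Subalgebras, quotients, fibre products -/

section Constructions

variable [Finite (ResidueField 𝒪)]

theorem isUnit_of_isUnit_val (S : Subalgebra 𝒪 A) (x : S) (h : IsUnit (S.val x)) : IsUnit x := by
  obtain ⟨u, hu⟩ := h
  have hpos : 0 < orderOf u := orderOf_pos u
  have h1 : (S.val x) ^ orderOf u = 1 := by
    rw [← hu, ← Units.val_pow_eq_pow_val, pow_orderOf_eq_one, Units.val_one]
  have h2 : x ^ orderOf u = 1 := by
    apply Subtype.ext
    simpa using h1
  obtain ⟨m, hm⟩ := Nat.exists_eq_succ_of_ne_zero hpos.ne'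
  rw [hm, pow_succ'] at h2
  exact IsUnit.of_mul_eq_one _ h2

/-- A subalgebra of a test algebra, as a test algebra. -/
abbrev sub (S : Subalgebra 𝒪 A) : TestAlg 𝒪 :=
  ofHom (B := A) S S.val (isUnit_of_isUnit_val A S)

/-- The inclusion of a subalgebra. -/
abbrev subVal (S : Subalgebra 𝒪 A) : A.sub S →ₐ[𝒪] A := S.val

omit [Finite (ResidueField 𝒪)] in
theorem isUnit_of_isUnit_quot (I : Ideal A) (hI : I ≤ maximalIdeal A) (x : A ⧸ I)
    (h : IsUnit (Ideal.Quotient.liftₐ I A.toRes
      (fun a ha => (A.toRes_eq_zero_iff a).mpr (hI ha)) x)) : IsUnit x := by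
  obtain ⟨a, rfl⟩ := Ideal.Quotient.mk_surjective x
  have h' : IsUnit (A.toRes a) := h
  have ha : IsUnit a := by
    by_contra hu
    have : a ∈ maximalIdeal A := (mem_maximalIdeal a).mpr hu
    rw [(A.toRes_eq_zero_iff a).mpr this] at h'
    exact not_isUnit_zero h'
  exact ha.map (Ideal.Quotient.mk I)

/-- A quotient of a test algebra by a proper ideal, as a test algebra. -/
abbrev quot (I : Ideal A) (hI : I ≤ maximalIdeal A) : TestAlg 𝒪 :=
  haveI : Finite (A ⧸ I) := Finite.of_surjective _ Ideal.Quotient.mk_surjective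
  ofHom (B := resField 𝒪) (A ⧸ I)
    (Ideal.Quotient.liftₐ I A.toRes (fun a ha => (A.toRes_eq_zero_iff a).mpr (hI ha)))
    (isUnit_of_isUnit_quot A I hI)

/-- The quotient map. -/
abbrev quotMk (I : Ideal A) (hI : I ≤ maximalIdeal A) : A →ₐ[𝒪] A.quot I hI :=
  Ideal.Quotient.mkₐ 𝒪 I

/-! #### Fibre products -/

section Fibre

variable {A' A'' A₀ : TestAlg 𝒪} (f : A' →ₐ[𝒪] A₀) (g : A'' →ₐ[𝒪] A₀)

/-- The fibre product as a subalgebra of the product. -/
abbrev fibreSub : Subalgebra 𝒪 (A' × A'') :=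
  AlgHom.equalizer (f.comp (AlgHom.fst 𝒪 A' A'')) (g.comp (AlgHom.snd 𝒪 A' A''))

omit [Finite (ResidueField 𝒪)] in
theorem mem_fibreSub (x : A' × A'') : x ∈ fibreSub f g ↔ f x.1 = g x.2 := Iff.rfl

omit [Finite (ResidueField 𝒪)] in
theorem isUnit_of_isUnit_fibre (x : fibreSub f g)
    (h : IsUnit (((AlgHom.fst 𝒪 A' A'').comp (fibreSub f g).val) x)) : IsUnit x := by
  obtain ⟨⟨a, b⟩, hx⟩ := x
  have hab : f a = g b := hx
  have ha : IsUnit a := h
  have hb : IsUnit b := by
    haveI := isLocalHom_algHom g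
    have : IsUnit (g b) := hab ▸ ha.map f
    exact isUnit_of_map_unit (g : A'' →+* A₀) b this
  obtain ⟨ua, rfl⟩ := ha
  obtain ⟨ub, rfl⟩ := hb
  have hinv : f (↑ua⁻¹ : A') = g (↑ub⁻¹ : A'') := by
    have h1 : f (↑ua⁻¹ : A') * f (ua : A') = 1 := by rw [← map_mul, Units.inv_mul, map_one]
    have h2 : g (↑ub⁻¹ : A'') * g (ub : A'') = 1 := by rw [← map_mul, Units.inv_mul, map_one]
    rw [hab] at h1
    calc f (↑ua⁻¹ : A') = f (↑ua⁻¹ : A') * (g (ub : A'') * g (↑ub⁻¹ : A'')) := by
          rw [← map_mul, Units.mul_inv, map_one, mul_one]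
      _ = (f (↑ua⁻¹ : A') * g (ub : A'')) * g (↑ub⁻¹ : A'') := by rw [mul_assoc]
      _ = g (↑ub⁻¹ : A'') := by rw [h1, one_mul]
  refine IsUnit.of_mul_eq_one ⟨((↑ua⁻¹ : A'), (↑ub⁻¹ : A'')), hinv⟩ ?_
  apply Subtype.ext
  simp

/-- The fibre product of test algebras, as a test algebra. -/
abbrev fibre : TestAlg 𝒪 :=
  ofHom (B := A') (fibreSub f g) ((AlgHom.fst 𝒪 A' A'').comp (fibreSub f g).val)
    (isUnit_of_isUnit_fibre f g)

/-- First projection. -/
abbrev fibreFst : fibre f g →ₐ[𝒪] A' := (AlgHom.fst 𝒪 A' A'').comp (fibreSub f g).val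

/-- Second projection. -/
abbrev fibreSnd : fibre f g →ₐ[𝒪] A'' := (AlgHom.snd 𝒪 A' A'').comp (fibreSub f g).val

theorem fibre_comm : f.comp (fibreFst f g) = g.comp (fibreSnd f g) := by
  ext x
  exact x.2

theorem fibre_injective :
    Function.Injective (fun x : fibre f g => (fibreFst f g x, fibreSnd f g x)) := by
  intro x y h
  apply Subtype.ext
  exact h

theorem fibre_exists (a : A') (b : A'') (h : f a = g b) :
    ∃ x : fibre f g, fibreFst f g x = a ∧ fibreSnd f g x = b :=
  ⟨⟨(a, b), h⟩, rfl, rfl⟩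

/-- The universal map into the fibre product. -/
def fibreLift {C : TestAlg 𝒪} (u : C →ₐ[𝒪] A') (v : C →ₐ[𝒪] A'')
    (h : f.comp u = g.comp v) : C →ₐ[𝒪] fibre f g :=
  (u.prod v).codRestrict (fibreSub f g) (fun c => congrArg (fun φ : C →ₐ[𝒪] A₀ => φ c) h)

theorem fibreFst_fibreLift {C : TestAlg 𝒪} (u : C →ₐ[𝒪] A') (v : C →ₐ[𝒪] A'')
    (h : f.comp u = g.comp v) : (fibreFst f g).comp (fibreLift f g u v h) = u := by
  ext c; rfl

theorem fibreSnd_fibreLift {C : TestAlg 𝒪} (u : C →ₐ[𝒪] A') (v : C →ₐ[𝒪] A'')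
    (h : f.comp u = g.comp v) : (fibreSnd f g).comp (fibreLift f g u v h) = v := by
  ext c; rfl

end Fibre

/-! #### Dual numbers over the residue field -/

section DualNumber

variable (𝒪)

/-- The `𝒪`-algebra structure on `k[ε]` used by the Prelude's `TangentFinite`. -/
@[reducible] def dualNumberAlgebra : Algebra 𝒪 (DualNumber (ResidueField 𝒪)) :=
  ((algebraMap (ResidueField 𝒪) (DualNumber (ResidueField 𝒪))).comp
      (algebraMap 𝒪 (ResidueField 𝒪))).toAlgebra

/-- First projection `k[ε] → k` as an `𝒪`-algebra hom (for the Prelude algebra structure). -/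
def dualNumberFstHom :
    letI := dualNumberAlgebra 𝒪
    DualNumber (ResidueField 𝒪) →ₐ[𝒪] resField 𝒪 :=
  letI := dualNumberAlgebra 𝒪
  { (TrivSqZeroExt.fstHom (ResidueField 𝒪) (ResidueField 𝒪) (ResidueField 𝒪) :
      DualNumber (ResidueField 𝒪) →+* ResidueField 𝒪) with
    commutes' := fun _ => rfl }

/-- The dual numbers `k[ε]` over the residue field, as a test algebra
(with the Prelude's algebra structure). Deliberately not reducible. -/
def dualNumber : TestAlg 𝒪 :=
  letI := dualNumberAlgebra 𝒪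
  haveI : Finite (DualNumber (ResidueField 𝒪)) :=
    inferInstanceAs (Finite (ResidueField 𝒪 × ResidueField 𝒪))
  ofHom (B := resField 𝒪) (DualNumber (ResidueField 𝒪)) (dualNumberFstHom 𝒪)
    (fun _ h => TrivSqZeroExt.isUnit_iff_isUnit_fst.mpr h)

variable {𝒪}

/-- Build an element of `k[ε]`. -/
def dnMk (x y : ResidueField 𝒪) : dualNumber 𝒪 :=
  (TrivSqZeroExt.inl x + TrivSqZeroExt.inr y : DualNumber (ResidueField 𝒪))

/-- First component. -/
def dnFst (z : dualNumber 𝒪) : ResidueField 𝒪 :=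
  TrivSqZeroExt.fst (show DualNumber (ResidueField 𝒪) from z)

/-- Second component. -/
def dnSnd (z : dualNumber 𝒪) : ResidueField 𝒪 :=
  TrivSqZeroExt.snd (show DualNumber (ResidueField 𝒪) from z)

@[ext] theorem dn_ext {z w : dualNumber 𝒪} (h1 : dnFst z = dnFst w) (h2 : dnSnd z = dnSnd w) :
    z = w :=
  TrivSqZeroExt.ext h1 h2

@[simp] theorem dnFst_mk (x y : ResidueField 𝒪) : dnFst (dnMk x y) = x := by
  simp [dnFst, dnMk]

@[simp] theorem dnSnd_mk (x y : ResidueField 𝒪) : dnSnd (dnMk x y) = y := by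
  simp [dnSnd, dnMk]

@[simp] theorem dnFst_add (z w : dualNumber 𝒪) : dnFst (z + w) = dnFst z + dnFst w := rfl
@[simp] theorem dnSnd_add (z w : dualNumber 𝒪) : dnSnd (z + w) = dnSnd z + dnSnd w := rfl
@[simp] theorem dnFst_mul (z w : dualNumber 𝒪) : dnFst (z * w) = dnFst z * dnFst w := rfl
@[simp] theorem dnSnd_mul (z w : dualNumber 𝒪) :
    dnSnd (z * w) = dnFst z * dnSnd w + dnFst w * dnSnd z := by
  change TrivSqZeroExt.snd ((show DualNumber (ResidueField 𝒪) from z) *
    (show DualNumber (ResidueField 𝒪) from w)) = _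
  rw [TrivSqZeroExt.snd_mul]
  simp only [dnFst, dnSnd, smul_eq_mul, MulOpposite.smul_eq_mul_unop, MulOpposite.unop_op]
  ring
@[simp] theorem dnFst_zero : dnFst (0 : dualNumber 𝒪) = 0 := rfl
@[simp] theorem dnSnd_zero : dnSnd (0 : dualNumber 𝒪) = 0 := rfl
@[simp] theorem dnFst_one : dnFst (1 : dualNumber 𝒪) = 1 := rfl
@[simp] theorem dnSnd_one : dnSnd (1 : dualNumber 𝒪) = 0 := rfl
@[simp] theorem dnFst_algebraMap (c : 𝒪) :
    dnFst (algebraMap 𝒪 (dualNumber 𝒪) c) = IsLocalRing.residue 𝒪 c := rfl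
@[simp] theorem dnSnd_algebraMap (c : 𝒪) :
    dnSnd (algebraMap 𝒪 (dualNumber 𝒪) c) = 0 := rfl

theorem dnMk_fst_snd (z : dualNumber 𝒪) : dnMk (dnFst z) (dnSnd z) = z := by
  ext <;> simp

variable (X : TestAlg 𝒪)

omit [Finite (ResidueField 𝒪)] in
theorem toRes_resField : (resField 𝒪).toRes = AlgHom.id 𝒪 (resField 𝒪) :=
  algHom_ext_of_isField maximalIdeal_resField _ _

/-- An `𝒪`-algebra hom to `k[ε]` from a "derivation" `d : X → k`. -/
def derivHom (d : X → ResidueField 𝒪) (d_add : ∀ x y, d (x + y) = d x + d y)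
    (d_mul : ∀ x y, d (x * y) = X.toRes x * d y + X.toRes y * d x)
    (d_alg : ∀ c : 𝒪, d (algebraMap 𝒪 X c) = 0) : X →ₐ[𝒪] dualNumber 𝒪 where
  toFun x := dnMk (X.toRes x) (d x)
  map_one' := by
    have h := d_alg 1
    rw [map_one] at h
    ext
    · simp
    · simp [h]
  map_mul' x y := by
    ext
    · simp
    · simp [d_mul]
  map_zero' := by
    have h := d_add 0 0
    rw [add_zero] at h
    have h0 : d 0 = 0 := by
      have := congrArg (fun t => t - d 0) h
      simpa using this.symm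
    ext
    · simp
    · simp [h0]
  map_add' x y := by
    ext
    · simp
    · simp [d_add]
  commutes' c := by
    ext
    · simp
    · simp [d_alg]

@[simp] theorem dnFst_derivHom (d : X → ResidueField 𝒪) (d_add d_mul d_alg) (x : X) :
    dnFst (derivHom X d d_add d_mul d_alg x) = X.toRes x := by
  simp [derivHom]

@[simp] theorem dnSnd_derivHom (d : X → ResidueField 𝒪) (d_add d_mul d_alg) (x : X) :
    dnSnd (derivHom X d d_add d_mul d_alg x) = d x := by
  simp [derivHom]

variable (𝒪) in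
/-- The inclusion `k → k[ε]`. -/
def resToDual : resField 𝒪 →ₐ[𝒪] dualNumber 𝒪 :=
  derivHom (resField 𝒪) (fun _ => 0) (by simp) (by simp) (by simp)

@[simp] theorem dnFst_resToDual (x : resField 𝒪) : dnFst (resToDual 𝒪 x) = x := by
  unfold resToDual
  rw [dnFst_derivHom, toRes_resField]
  rfl

@[simp] theorem dnSnd_resToDual (x : resField 𝒪) : dnSnd (resToDual 𝒪 x) = 0 := by
  unfold resToDual
  rw [dnSnd_derivHom]

/-- The trivial hom `X → k → k[ε]`. -/
theorem resToDual_comp_toRes_apply (x : X) :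
    (resToDual 𝒪).comp X.toRes x = dnMk (X.toRes x) 0 := by
  ext
  · rw [AlgHom.comp_apply, dnFst_resToDual, dnFst_mk]
  · rw [AlgHom.comp_apply, dnSnd_resToDual, dnSnd_mk]

theorem dnFst_algHom (φ : X →ₐ[𝒪] dualNumber 𝒪) (x : X) : dnFst (φ x) = X.toRes x := by
  have h : (dualNumber 𝒪).toRes.comp φ = X.toRes := toRes_comp φ
  have h2 : ∀ z : dualNumber 𝒪, (dualNumber 𝒪).toRes z = dnFst z := by
    intro z
    obtain ⟨c, hc⟩ := (dualNumber 𝒪).exists_sub_mem z
    have h3 : (dualNumber 𝒪).toRes (z - algebraMap 𝒪 _ c) = 0 :=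
      ((dualNumber 𝒪).toRes_eq_zero_iff _).mpr hc
    rw [map_sub, toRes_algebraMap, sub_eq_zero] at h3
    rw [h3]
    have h4 : ¬ IsUnit (z - algebraMap 𝒪 (dualNumber 𝒪) c) := (mem_maximalIdeal _).mp hc
    have h5 : ¬ IsUnit (dnFst (z - algebraMap 𝒪 (dualNumber 𝒪) c)) := fun h =>
      h4 (TrivSqZeroExt.isUnit_iff_isUnit_fst.mpr h)
    have h6 : dnFst (z - algebraMap 𝒪 (dualNumber 𝒪) c) = 0 := by
      by_contra hne
      exact h5 (IsUnit.mk0 _ hne)
    have h7 : dnFst (z - algebraMap 𝒪 (dualNumber 𝒪) c) = dnFst z - IsLocalRing.residue 𝒪 c := rfl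
    rw [h7, sub_eq_zero] at h6
    exact h6.symm
  rw [← h2, ← h]
  rfl

end DualNumber

end Constructions

end TestAlg

end

end Fermat.Agent.S53.PR
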